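/-
S26 / package P4 (UFD), leaf L2 (algebraic Hartogs), exact statement of
`Fermat/Agent/S26/UFD/Skeleton.lean` (origin/helper256).  Mathlib only.  (helper6404)

Proof: let `x ∉ R`.  Take an associated prime `P = (R : y)` of the `R`-module `K/R` containing the
denominator ideal `(R : x)`.  If `y P ⊆ P` then `y` is integral over `R` (`P` is a finitely
generated faithful module), so `y ∈ R`, contradiction.  Otherwise `y t = u ∉ P` for some `t ∈ P`,
and then `P` is a minimal prime over `(t)`, so `ht P = 1` by Krull's principal ideal theorem.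
But every denominator of `x` lies in `P`, so `x ∉ R_P`.
-/
import Mathlib

set_option autoImplicit false

namespace Fermat.Agent.S26.UFD

open Ideal Submodule

section L2

variable {R : Type*} [CommRing R] [IsDomain R] [IsNoetherianRing R] [IsIntegrallyClosed R]
variable {K : Type*} [Field K] [Algebra R K] [IsFractionRing R K]

/-- Key step: if `x : K` is not in `R`, there is a height-one prime `p` of `R` such that
`x` has no denominator outside `p`. -/
theorem L2_exists_height_one_forall_denominator_mem (x : K)
    (hx : x ∉ (algebraMap R K).range) :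
    ∃ p : Ideal R, p.IsPrime ∧ p.height = 1 ∧
      ∀ s : R, x * algebraMap R K s ∈ (algebraMap R K).range → s ∈ p := by
  classical
  -- the `R`-submodule `R ⊆ K`
  set N : Submodule R K := LinearMap.range (Algebra.linearMap R K) with hN
  have hmemN : ∀ z : K, z ∈ N ↔ z ∈ (algebraMap R K).range := by
    intro z
    simp [hN]
  have hinj : Function.Injective (algebraMap R K) := IsFractionRing.injective R K
  have hxN : (Submodule.Quotient.mk x : K ⧸ N) ≠ 0 := by
    rw [Ne, Submodule.Quotient.mk_eq_zero, hmemN]
    exact hx
  obtain ⟨P, hP, hle⟩ := exists_le_isAssociatedPrime_of_isNoetherianRing R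
    (Submodule.Quotient.mk x : K ⧸ N) hxN
  obtain ⟨hPprime, ybar, hPy⟩ := isAssociatedPrime_iff.mp hP
  obtain ⟨y, rfl⟩ := Submodule.Quotient.mk_surjective N ybar
  -- membership in `P`
  have hPmem : ∀ r : R, r ∈ P ↔ algebraMap R K r * y ∈ (algebraMap R K).range := by
    intro r
    rw [hPy, Submodule.mem_colon_singleton, ← Submodule.Quotient.mk_smul, Submodule.mem_bot,
      Submodule.Quotient.mk_eq_zero, hmemN, Algebra.smul_def]
  have hxmem : ∀ s : R, x * algebraMap R K s ∈ (algebraMap R K).range → s ∈ P := by
    intro s hs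
    apply hle
    rw [Submodule.mem_colon_singleton, ← Submodule.Quotient.mk_smul, Submodule.mem_bot,
      Submodule.Quotient.mk_eq_zero, hmemN, Algebra.smul_def, mul_comm]
    exact hs
  refine ⟨P, hPprime, ?_, hxmem⟩
  -- `y ∉ R`
  have hyR : y ∉ (algebraMap R K).range := by
    intro hy
    apply hPprime.ne_top
    rw [Ideal.eq_top_iff_one, hPmem]
    simpa using hy
  -- `P ≠ ⊥`
  have hPbot : P ≠ ⊥ := by
    obtain ⟨a, b, hb, hab⟩ := IsFractionRing.div_surjective (A := R) y
    have hb0 : b ≠ 0 := nonZeroDivisors.ne_zero hb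
    have hbP : b ∈ P := by
      rw [hPmem]
      refine ⟨a, ?_⟩
      rw [← hab]
      have : algebraMap R K b ≠ 0 := by
        simpa using (map_ne_zero_iff (algebraMap R K) hinj).mpr hb0
      field_simp
    intro h
    rw [h] at hbP
    exact hb0 (by simpa using hbP)
  -- there is `t ∈ P` with `y * t = u ∈ R ∖ P`
  have hex : ∃ t ∈ P, ∃ u : R, u ∉ P ∧ algebraMap R K t * y = algebraMap R K u := by
    by_contra hcon
    push Not at hcon
    -- then `y • P ⊆ P`, so `y` is integral over `R`
    have hfg : (Submodule.map (Algebra.linearMap R K) P).FG :=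
      Submodule.FG.map _ (IsNoetherian.noetherian P)
    have hne : (Submodule.map (Algebra.linearMap R K) P) ≠ ⊥ := by
      intro h
      apply hPbot
      rw [Submodule.eq_bot_iff]
      intro r hr
      have : algebraMap R K r ∈ (Submodule.map (Algebra.linearMap R K) P) :=
        Submodule.mem_map_of_mem (f := Algebra.linearMap R K) hr
      rw [h, Submodule.mem_bot] at this
      exact hinj (by simpa using this)
    have hint : IsIntegral R y := by
      refine isIntegral_of_smul_mem_submodule (M := K)
        (Submodule.map (Algebra.linearMap R K) P) hne hfg y ?_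
      rintro _ ⟨t, ht, rfl⟩
      obtain ⟨u, hu⟩ := (hPmem t).mp ht
      have huP : u ∈ P := by
        by_contra huP
        exact hcon t ht u huP hu.symm
      refine ⟨u, huP, ?_⟩
      simp only [Algebra.linearMap_apply, smul_eq_mul]
      rw [hu, mul_comm]
    exact hyR (IsIntegrallyClosed.isIntegral_iff.mp hint)
  obtain ⟨t, htP, u, huP, htu⟩ := hex
  -- `P` is minimal over `(t)`
  have hmin : P ∈ (Ideal.span {t}).minimalPrimes := by
    refine ⟨⟨hPprime, (Ideal.span_singleton_le_iff_mem P).mpr htP⟩, ?_⟩
    rintro Q ⟨hQprime, hQt⟩ hQP z hz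
    have htQ : t ∈ Q := (Ideal.span_singleton_le_iff_mem Q).mp hQt
    obtain ⟨w, hw⟩ := (hPmem z).mp hz
    -- `u * z = t * w`
    have huz : u * z = t * w := by
      apply hinj
      rw [map_mul, map_mul, ← htu, hw]
      ring
    have : u * z ∈ Q := by
      rw [huz]
      exact Q.mul_mem_right _ htQ
    rcases hQprime.mem_or_mem this with h | h
    · exact absurd (hQP h) huP
    · exact h
  refine le_antisymm (Ideal.height_le_one_of_isPrincipal_of_mem_minimalPrimes _ P hmin) ?_
  have : P.height ≠ 0 := by
    intro h0
    have hPmin : P ∈ minimalPrimes R := (Ideal.height_eq_zero_iff).mp h0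
    have hbotprime : (⊥ : Ideal R).IsPrime := Ideal.isPrime_bot
    exact hPbot (le_bot_iff.mp (hPmin.2 ⟨hbotprime, bot_le⟩ bot_le))
  exact Order.one_le_iff_pos.mpr (pos_iff_ne_zero.mpr this)

end L2

/-- L2 (H, algebraic Hartogs): a noetherian integrally closed domain is the intersection of its
localisations at the primes of height one. -/
theorem L2_hartogs (R : Type*) [CommRing R] [IsDomain R] [IsNoetherianRing R]
    [IsIntegrallyClosed R] (F : Type*) [Field F] [Algebra R F] [IsFractionRing R F] (x : F)
    (hx : ∀ p : Ideal R, p.IsPrime → p.height = 1 →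
      ∃ a s : R, s ∉ p ∧ x * algebraMap R F s = algebraMap R F a) :
    x ∈ (algebraMap R F).range := by
  by_contra hxR
  obtain ⟨p, hp, hp1, hden⟩ := L2_exists_height_one_forall_denominator_mem x hxR
  obtain ⟨a, s, hs, hxs⟩ := hx p hp hp1
  exact hs (hden s ⟨a, hxs.symm⟩)

end Fermat.Agent.S26.UFD
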