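import Fermat.Agent.S26.UFD.Export
import Fermat.Agent.S26.Defs

/-!
# S26 package P4 UFD: the frozen export `stalk_ufd_of_smooth` of `Fermat/Agent/S26/Geom.lean`

`Fermat.Agent.S26.UFD.stalk_ufd_of_smooth` has EXACTLY the frozen signature of
`Fermat.Agent.S26.stalk_ufd_of_smooth`.  Bonus (same proof): the two P6 exports
`stalk_isIntegrallyClosed_of_smooth` and `localRing_integrallyClosed_of_smooth`, also with the
exact frozen signatures.  No frozen export is used as a black box: the closure is sorry-free.
-/

set_option autoImplicit false

universe u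

open CategoryTheory CategoryTheory.Limits AlgebraicGeometry

namespace Fermat.Agent.S26.UFD

variable {K : Type u} [Field K] [IsAlgClosed K]

/-- P4 EXPORT: local rings of a smooth integral `K`-scheme are unique factorisation domains. -/
theorem stalk_ufd_of_smooth {X : Scheme.{u}} [IsIntegral X]
    (sX : X ⟶ Spec (CommRingCat.of K)) [Smooth sX] (x : X) :
    UniqueFactorizationMonoid (X.presheaf.stalk x) :=
  (ufd_stalk_of_smooth sX x).2

/-- P6 EXPORT: local rings of a smooth integral `K`-scheme are integrally closed. -/
theorem stalk_isIntegrallyClosed_of_smooth {X : Scheme.{u}} [IsIntegral X]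
    (sX : X ⟶ Spec (CommRingCat.of K)) [Smooth sX] (x : X) :
    IsIntegrallyClosed (X.presheaf.stalk x) := by
  have := stalk_ufd_of_smooth sX x
  infer_instance

/-- P6 EXPORT: `localRing X x` is integrally closed in the function field (smooth case). -/
theorem localRing_integrallyClosed_of_smooth {X : Scheme.{u}} [IsIntegral X]
    (sX : X ⟶ Spec (CommRingCat.of K)) [Smooth sX] (x : X) (u : X.functionField)
    (hu : IsIntegral (localRing X x) u) : u ∈ localRing X x := by
  have hic := stalk_isIntegrallyClosed_of_smooth sX x
  let φ : X.presheaf.stalk x →+* X.functionField :=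
    algebraMap (X.presheaf.stalk x) X.functionField
  let alg : Algebra (X.presheaf.stalk x) (localRing X x) := φ.rangeRestrict.toAlgebra
  have tower : IsScalarTower (X.presheaf.stalk x) (localRing X x) X.functionField :=
    IsScalarTower.of_algebraMap_eq (fun _ => rfl)
  have hint : Algebra.IsIntegral (X.presheaf.stalk x) (localRing X x) :=
    Algebra.isIntegral_of_surjective φ.rangeRestrict_surjective
  have hu' : IsIntegral (X.presheaf.stalk x) u := isIntegral_trans u hu
  obtain ⟨y, hy⟩ := (IsIntegrallyClosed.isIntegral_iff (R := X.presheaf.stalk x)).mp hu'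
  exact ⟨y, hy⟩

end Fermat.Agent.S26.UFD
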