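import Mathlib

/-!
# S26, package P4 UFD, leaf "descent" (helper1223): descent of unique factorisation along a faithfully flat map

* `Fermat.Agent.S26.UFD.map_inf_span_singleton`: for a flat `R`-algebra `S`,
  `(aR ∩ bR) S = aS ∩ bS`.
* `Fermat.Agent.S26.UFD.exists_lcm_of_faithfullyFlat`: if `S` is a faithfully flat `R`-algebra which
  is a local domain with lcm's, then `R` has lcm's.
* `Fermat.Agent.S26.UFD.ufd_of_faithfullyFlat`: `R` Noetherian, `S` a faithfully flat `R`-algebra
  which is a local UFD domain  ⟹  `R` is a UFD domain.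
* `Fermat.Agent.S26.UFD.ufd_of_adicCompletion`: a Noetherian local ring whose completion is a
  UFD domain is a UFD domain.
-/

set_option autoImplicit false

namespace Fermat.Agent.S26.UFD

open IsLocalRing

section flat

variable {R S : Type*} [CommRing R] [CommRing S] [Algebra R S]

/-- Flat base change commutes with the intersection of two principal ideals. -/
theorem map_inf_span_singleton [Module.Flat R S] (a b : R) :
    (Ideal.span {a} ⊓ Ideal.span {b} : Ideal R).map (algebraMap R S) =
      Ideal.span {algebraMap R S a} ⊓ Ideal.span {algebraMap R S b} := by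
  apply le_antisymm
  · refine (Ideal.map_inf_le _).trans ?_
    rw [Ideal.map_span, Ideal.map_span, Set.image_singleton, Set.image_singleton]
  · intro x hx
    obtain ⟨hxa, hxb⟩ := hx
    obtain ⟨s, rfl⟩ := Ideal.mem_span_singleton'.mp hxa
    obtain ⟨s', hs'⟩ := Ideal.mem_span_singleton'.mp hxb
    -- the relation `a • s - b • s' = 0`
    obtain ⟨k, A, y, hy, hA⟩ := Module.Flat.isTrivialRelation_of_sum_smul_eq_zero
      (R := R) (M := S) (f := ![a, -b]) (x := ![s, s']) (by
        simp only [Fin.sum_univ_two, Matrix.cons_val_zero, Matrix.cons_val_one,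
          Algebra.smul_def, map_neg]
        rw [mul_comm, ← hs']
        ring)
    have h0 := hy 0
    simp only [Matrix.cons_val_zero] at h0
    have hmem : ∀ j : Fin k, a * A 0 j ∈ (Ideal.span {a} ⊓ Ideal.span {b} : Ideal R) := by
      intro j
      have hj := hA j
      simp only [Fin.sum_univ_two, Matrix.cons_val_zero, Matrix.cons_val_one] at hj
      refine ⟨Ideal.mem_span_singleton'.mpr ⟨A 0 j, mul_comm _ _⟩, ?_⟩
      have : a * A 0 j = b * A 1 j := by linear_combination hj
      rw [this]
      exact Ideal.mem_span_singleton'.mpr ⟨A 1 j, mul_comm _ _⟩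
    have hx' : s * algebraMap R S a = ∑ j : Fin k, algebraMap R S (a * A 0 j) * y j := by
      rw [h0, Finset.sum_mul]
      refine Finset.sum_congr rfl fun j _ => ?_
      rw [Algebra.smul_def, map_mul]
      ring
    rw [hx']
    exact Ideal.sum_mem _ fun j _ => Ideal.mul_mem_right _ _ (Ideal.mem_map_of_mem _ (hmem j))

end flat

section descent

variable (R S : Type*) [CommRing R] [CommRing S] [Algebra R S]

theorem algebraMap_injective_of_faithfullyFlat [Module.FaithfullyFlat R S] :
    Function.Injective (algebraMap R S) := by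
  rw [injective_iff_map_eq_zero]
  intro x hx
  have h := Ideal.comap_map_eq_self_of_faithfullyFlat (B := S) (⊥ : Ideal R)
  have hx' : x ∈ ((⊥ : Ideal R).map (algebraMap R S)).comap (algebraMap R S) := by
    rw [Ideal.mem_comap, hx]
    exact Ideal.zero_mem _
  rw [h] at hx'
  exact hx'

/-- If `S` is a faithfully flat `R`-algebra, `S` a local domain with lcm's, then `R` has lcm's. -/
theorem exists_lcm_of_faithfullyFlat [Module.FaithfullyFlat R S] [IsLocalRing S] [IsDomain S]
    (hS : ∀ a b : S, ∃ c : S, ∀ d : S, a ∣ d ∧ b ∣ d ↔ c ∣ d) (a b : R) :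
    ∃ c : R, ∀ d : R, a ∣ d ∧ b ∣ d ↔ c ∣ d := by
  have hinj := algebraMap_injective_of_faithfullyFlat R S
  set φ := algebraMap R S with hφ
  set I : Ideal R := Ideal.span {a} ⊓ Ideal.span {b} with hI
  have hImem : ∀ d : R, d ∈ I ↔ a ∣ d ∧ b ∣ d := by
    intro d
    rw [hI, Ideal.mem_inf, Ideal.mem_span_singleton, Ideal.mem_span_singleton]
  obtain ⟨l, hl⟩ := hS (φ a) (φ b)
  have hIS : I.map φ = Ideal.span {l} := by
    rw [hI, map_inf_span_singleton]
    ext d
    rw [Ideal.mem_inf, Ideal.mem_span_singleton, Ideal.mem_span_singleton,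
      Ideal.mem_span_singleton]
    exact hl d
  -- it suffices to find `d ∈ I` with `φ d` generating `I S`
  suffices h : ∃ d ∈ I, Ideal.span {φ d} = Ideal.span {l} by
    obtain ⟨d, hdI, hd⟩ := h
    have hIeq : I = Ideal.span {d} := by
      have h1 := Ideal.comap_map_eq_self_of_faithfullyFlat (B := S) I
      have h2 := Ideal.comap_map_eq_self_of_faithfullyFlat (B := S) (Ideal.span {d} : Ideal R)
      rw [← h1, ← h2, Ideal.map_span, Set.image_singleton]
      change Ideal.comap φ (Ideal.map φ I) = Ideal.comap φ (Ideal.span {φ d})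
      rw [hIS, hd]
    refine ⟨d, fun x => ?_⟩
    rw [← hImem, hIeq, Ideal.mem_span_singleton]
  by_cases hl0 : l = 0
  · refine ⟨0, I.zero_mem, ?_⟩
    rw [hl0, map_zero]
  -- otherwise some element of `I` maps outside `l • 𝔪`
  by_contra hcon
  push Not at hcon
  have hle : I.map φ ≤ Ideal.span {l} * maximalIdeal S := by
    rw [Ideal.map_le_iff_le_comap]
    intro d hd
    rw [Ideal.mem_comap]
    have hdl : φ d ∈ Ideal.span {l} := by
      rw [← hIS]
      exact Ideal.mem_map_of_mem _ hd
    obtain ⟨u, hu⟩ := Ideal.mem_span_singleton'.mp hdl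
    by_cases huu : IsUnit u
    · exfalso
      apply hcon d hd
      rw [← hu]
      exact Ideal.span_singleton_eq_span_singleton.mpr
        (associated_unit_mul_left l u huu)
    · rw [← hu, mul_comm u l]
      exact Ideal.mul_mem_mul (Ideal.mem_span_singleton_self l)
        ((IsLocalRing.mem_maximalIdeal u).mpr huu)
  have hlmem : l ∈ Ideal.span {l} * maximalIdeal S := by
    apply hle
    rw [hIS]
    exact Ideal.mem_span_singleton_self l
  rw [Ideal.mem_span_singleton_mul] at hlmem
  obtain ⟨u, hu, hlu⟩ := hlmem
  have h1 : l * (u - 1) = 0 := by rw [mul_sub, hlu, mul_one, sub_self]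
  rcases mul_eq_zero.mp h1 with h | h
  · exact hl0 h
  · have : u = 1 := sub_eq_zero.mp h
    rw [this] at hu
    exact (IsLocalRing.mem_maximalIdeal (1 : S)).mp hu isUnit_one

/-- **Descent of unique factorisation.** -/
theorem ufd_of_faithfullyFlat [IsNoetherianRing R] [Module.FaithfullyFlat R S] [IsLocalRing S]
    [IsDomain S] [UniqueFactorizationMonoid S] : IsDomain R ∧ UniqueFactorizationMonoid R := by
  have hinj := algebraMap_injective_of_faithfullyFlat R S
  have : IsDomain R := hinj.isDomain (algebraMap R S)
  refine ⟨inferInstance, ?_⟩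
  obtain ⟨-, hS⟩ := isGCDMonoid_iff_exists_lcm.mp (inferInstance : IsGCDMonoid S)
  have : IsGCDMonoid R :=
    isGCDMonoid_iff_exists_lcm.mpr ⟨inferInstance, exists_lcm_of_faithfullyFlat R S hS⟩
  infer_instance

end descent

/-- A Noetherian local ring whose completion is a unique factorisation domain is a unique
factorisation domain. -/
theorem ufd_of_adicCompletion (R : Type*) [CommRing R] [IsLocalRing R] [IsNoetherianRing R]
    [IsDomain (AdicCompletion (maximalIdeal R) R)]
    [UniqueFactorizationMonoid (AdicCompletion (maximalIdeal R) R)] :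
    IsDomain R ∧ UniqueFactorizationMonoid R := by
  have : Module.FaithfullyFlat R (AdicCompletion (maximalIdeal R) R) :=
    Module.FaithfullyFlat.of_flat_of_isLocalHom
  exact ufd_of_faithfullyFlat R (AdicCompletion (maximalIdeal R) R)

end Fermat.Agent.S26.UFD
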