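import Mathlib

set_option autoImplicit false

namespace Fermat.Agent.S26.UFD

open IsLocalRing

/-- Lemma A: two ring homs `θ π : A →+* B` which agree modulo `J ^ 2`, where `π` maps `I` into
`J`, agree modulo `J ^ (k + 1)` on `I ^ k`. -/
theorem L10_sub_mem_pow_succ {A B : Type*} [CommRing A] [CommRing B] (θ π : A →+* B)
    (I : Ideal A) (J : Ideal B) (hπ : ∀ x ∈ I, π x ∈ J)
    (h1 : ∀ x, θ x - π x ∈ J ^ 2) :
    ∀ (k : ℕ) (x : A), x ∈ I ^ k → θ x - π x ∈ J ^ (k + 1) := by
  have hJ2 : J ^ 2 ≤ J := Ideal.pow_le_self (by norm_num)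
  have hθ : ∀ x ∈ I, θ x ∈ J := fun x hx => by
    have := add_mem (hJ2 (h1 x)) (hπ x hx)
    simpa using this
  have hπk : ∀ (k : ℕ) (x : A), x ∈ I ^ k → π x ∈ J ^ k := by
    intro k x hx
    have h : (I ^ k).map π ≤ J ^ k := by
      rw [Ideal.map_pow]
      exact Ideal.pow_right_mono (Ideal.map_le_iff_le_comap.mpr fun y hy => hπ y hy) k
    exact h (Ideal.mem_map_of_mem π hx)
  intro k
  induction k with
  | zero => intro x _; simpa using hJ2 (h1 x)
  | succ k ih =>
    intro x hx
    rw [pow_succ] at hx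
    refine Submodule.mul_induction_on hx ?_ ?_
    · intro a ha b hb
      have e : θ (a * b) - π (a * b) = (θ a - π a) * θ b + π a * (θ b - π b) := by
        simp only [map_mul]; ring
      rw [e]
      refine add_mem ?_ ?_
      · have := Ideal.mul_mem_mul (ih a ha) (hθ b hb)
        rwa [← pow_succ] at this
      · have := Ideal.mul_mem_mul (hπk k a ha) (h1 b)
        rwa [← pow_add] at this
    · intro a b ha hb
      have e : θ (a + b) - π (a + b) = (θ a - π a) + (θ b - π b) := by
        simp only [map_add]; ring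
      rw [e]
      exact add_mem ha hb

/-- Lemma B: if `m` is generated by the `t i` and `R = K + m`, then every element of `R` is a
polynomial in the `t i` modulo `m ^ n`. -/
theorem L10_exists_sub_mem_pow {K R : Type*} [Field K] [CommRing R] [Algebra K R] {σ : Type*}
    (m : Ideal R) (t : σ → R) (ht : Ideal.span (Set.range t) = m)
    (hc : ∀ r : R, ∃ a : K, r - algebraMap K R a ∈ m) :
    ∀ (n : ℕ) (r : R), ∃ p : MvPolynomial σ K, r - MvPolynomial.aeval t p ∈ m ^ n := by
  have htm : ∀ i, t i ∈ m := fun i => ht ▸ Ideal.subset_span (Set.mem_range_self i)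
  have key : ∀ (n : ℕ) (x : R), x ∈ m ^ n →
      ∃ p : MvPolynomial σ K, x - MvPolynomial.aeval t p ∈ m ^ (n + 1) := by
    intro n
    induction n with
    | zero =>
      intro x _
      obtain ⟨a, ha⟩ := hc x
      exact ⟨MvPolynomial.C a, by simpa using ha⟩
    | succ n ih =>
      intro x hx
      have step : ∀ a ∈ m, ∀ b ∈ m ^ n,
          ∃ p : MvPolynomial σ K, a * b - MvPolynomial.aeval t p ∈ m ^ (n + 1 + 1) := by
        intro a ha
        rw [← ht] at ha
        induction ha using Submodule.span_induction with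
        | mem a ha =>
          obtain ⟨i, rfl⟩ := ha
          intro b hb
          obtain ⟨q, hq⟩ := ih b hb
          refine ⟨MvPolynomial.X i * q, ?_⟩
          have e : t i * b - MvPolynomial.aeval t (MvPolynomial.X i * q) =
              t i * (b - MvPolynomial.aeval t q) := by
            simp only [map_mul, MvPolynomial.aeval_X]; ring
          rw [e, pow_succ' m (n + 1)]
          exact Ideal.mul_mem_mul (htm i) hq
        | zero => intro b _; exact ⟨0, by simp⟩
        | add a a' _ _ iha iha' =>
          intro b hb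
          obtain ⟨p, hp⟩ := iha b hb
          obtain ⟨p', hp'⟩ := iha' b hb
          refine ⟨p + p', ?_⟩
          have e : (a + a') * b - MvPolynomial.aeval t (p + p') =
              (a * b - MvPolynomial.aeval t p) + (a' * b - MvPolynomial.aeval t p') := by
            simp only [map_add]; ring
          rw [e]
          exact add_mem hp hp'
        | smul r a _ iha =>
          intro b hb
          obtain ⟨p, hp⟩ := iha (r * b) (Ideal.mul_mem_left _ r hb)
          refine ⟨p, ?_⟩
          have e : r • a * b - MvPolynomial.aeval t p = a * (r * b) - MvPolynomial.aeval t p := by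
            simp only [smul_eq_mul]; ring
          rw [e]
          exact hp
      rw [pow_succ'] at hx
      refine Submodule.mul_induction_on hx (fun a ha b hb => step a ha b hb) ?_
      intro a b ⟨p, hp⟩ ⟨p', hp'⟩
      refine ⟨p + p', ?_⟩
      have e : (a + b) - MvPolynomial.aeval t (p + p') =
          (a - MvPolynomial.aeval t p) + (b - MvPolynomial.aeval t p') := by
        simp only [map_add]; ring
      rw [e]
      exact add_mem hp hp'
  intro n
  induction n with
  | zero => intro r; exact ⟨0, by simp⟩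
  | succ n ih =>
    intro r
    obtain ⟨p, hp⟩ := ih r
    obtain ⟨q, hq⟩ := key n _ hp
    refine ⟨p + q, ?_⟩
    have e : r - MvPolynomial.aeval t (p + q) =
        (r - MvPolynomial.aeval t p) - MvPolynomial.aeval t q := by
      simp only [map_add]; ring
    rw [e]
    exact hq

/-- Lemma C: levelwise injectivity from formal smoothness. -/
theorem L10_mem_pow_of_map_mem_pow {K R P : Type*} [CommRing K] [CommRing R] [CommRing P]
    [Algebra K R] [Algebra K P] [Algebra.FormallySmooth K R] (α : P →ₐ[K] R)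
    (I : Ideal P) (m : Ideal R) (σ₂ : R →ₐ[K] P ⧸ I ^ 2)
    (h1 : ∀ p, σ₂ (α p) = Ideal.Quotient.mk (I ^ 2) p)
    (h2 : ∀ y ∈ m, σ₂ y ∈ I.map (Ideal.Quotient.mk (I ^ 2)))
    (n : ℕ) (p : P) (hp : α p ∈ m ^ n) : p ∈ I ^ n := by
  have hle : I ^ (n + 2) ≤ I ^ 2 := Ideal.pow_le_pow_right (by omega)
  let g : P ⧸ I ^ (n + 2) →ₐ[K] P ⧸ I ^ 2 := Ideal.Quotient.factorₐ K hle
  have hg : Function.Surjective g := Ideal.Quotient.factor_surjective hle
  let π : P →+* P ⧸ I ^ (n + 2) := Ideal.Quotient.mk (I ^ (n + 2))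
  let J : Ideal (P ⧸ I ^ (n + 2)) := I.map π
  have hker : RingHom.ker (g : P ⧸ I ^ (n + 2) →+* P ⧸ I ^ 2) = J ^ 2 := by
    have : RingHom.ker (g : P ⧸ I ^ (n + 2) →+* P ⧸ I ^ 2) = (I ^ 2).map π :=
      Ideal.Quotient.factor_ker hle
    rw [this, Ideal.map_pow]
  have hJ0 : J ^ (n + 2) = ⊥ := by
    rw [← Ideal.map_pow]
    exact Ideal.map_quotient_self _
  have hg' : IsNilpotent (RingHom.ker (g : P ⧸ I ^ (n + 2) →+* P ⧸ I ^ 2)) := by
    refine ⟨n + 2, ?_⟩
    rw [hker, ← pow_mul, Ideal.zero_eq_bot, eq_bot_iff, ← hJ0]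
    exact Ideal.pow_le_pow_right (by nlinarith)
  let s : R →ₐ[K] P ⧸ I ^ (n + 2) := Algebra.FormallySmooth.liftOfSurjective σ₂ g hg hg'
  have hs : ∀ r, g (s r) = σ₂ r := Algebra.FormallySmooth.liftOfSurjective_apply σ₂ g hg hg'
  let θ : P →+* P ⧸ I ^ (n + 2) := (s.comp α : P →ₐ[K] P ⧸ I ^ (n + 2))
  have hθπ : ∀ x, θ x - π x ∈ J ^ 2 := by
    intro x
    rw [← hker, RingHom.mem_ker, map_sub, sub_eq_zero]
    change g (s (α x)) = g (Ideal.Quotient.mk _ x)
    rw [hs, h1]
    rfl
  have hA := L10_sub_mem_pow_succ θ π I J (fun x hx => Ideal.mem_map_of_mem π hx) hθπ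
  have hJ2 : J ^ 2 ≤ J := Ideal.pow_le_self (by norm_num)
  have hsm : ∀ y ∈ m, s y ∈ J := by
    intro y hy
    obtain ⟨q, hq, hq'⟩ :=
      (Ideal.mem_map_iff_of_surjective _ Ideal.Quotient.mk_surjective).mp (h2 y hy)
    have h3 : s y - π q ∈ J ^ 2 := by
      rw [← hker, RingHom.mem_ker, map_sub, sub_eq_zero]
      change g (s y) = g (Ideal.Quotient.mk _ q)
      rw [hs, ← hq']
      rfl
    have := add_mem (hJ2 h3) (Ideal.mem_map_of_mem π hq)
    simpa using this
  have hsn : s (α p) ∈ J ^ n := by
    have h : (m ^ n).map (s : R →+* P ⧸ I ^ (n + 2)) ≤ J ^ n := by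
      rw [Ideal.map_pow]
      have h0 : m.map (s : R →+* P ⧸ I ^ (n + 2)) ≤ J :=
        Ideal.map_le_iff_le_comap.mpr fun y hy => Ideal.mem_comap.mpr (hsm y hy)
      exact Ideal.pow_right_mono h0 n
    exact h (Ideal.mem_map_of_mem _ hp)
  have main : ∀ k, k ≤ n → p ∈ I ^ k := by
    intro k
    induction k with
    | zero => intro _; simp
    | succ k ih =>
      intro hk
      have hpk := ih (by omega)
      have h4 : π p ∈ J ^ (k + 1) := by
        have h5 : θ p ∈ J ^ (k + 1) := Ideal.pow_le_pow_right hk hsn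
        have := sub_mem h5 (hA k p hpk)
        simpa using this
      rw [← Ideal.map_pow] at h4
      obtain ⟨y, hy, hy'⟩ :=
        (Ideal.mem_map_iff_of_surjective _ Ideal.Quotient.mk_surjective).mp h4
      have h6 : y - p ∈ I ^ (n + 2) := Ideal.Quotient.eq.mp hy'
      have h7 : y - p ∈ I ^ (k + 1) := Ideal.pow_le_pow_right (by omega) h6
      have := sub_mem hy h7
      simpa using this
  exact main n le_rfl

theorem L10_factorPow_evalₐ {A : Type*} [CommRing A] (I : Ideal A) {m n : ℕ} (hle : m ≤ n)
    (x : AdicCompletion I A) :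
    Ideal.Quotient.factorPow I hle (AdicCompletion.evalₐ I n x) = AdicCompletion.evalₐ I m x := by
  obtain ⟨s, rfl⟩ := AdicCompletion.mk_surjective I A x
  rw [AdicCompletion.evalₐ_mk, AdicCompletion.evalₐ_mk, Ideal.Quotient.factor_mk,
    Ideal.Quotient.eq]
  have h := s.property hle
  rw [SModEq.sub_mem] at h
  have h' : s.val n - s.val m ∈ (I ^ m • ⊤ : Submodule A A) := by
    have := neg_mem h
    simpa using this
  simpa using h'

/-- Lemma D: a ring hom inducing isomorphisms `A ⧸ I ^ n ≃ B ⧸ J ^ n` for all `n` induces an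
isomorphism of adic completions. -/
theorem L10_adicCompletion_ringEquiv {A B : Type*} [CommRing A] [CommRing B]
    (I : Ideal A) (J : Ideal B) (α : A →+* B)
    (hmap : ∀ (n : ℕ) (x : A), x ∈ I ^ n → α x ∈ J ^ n)
    (hinj : ∀ (n : ℕ) (x : A), α x ∈ J ^ n → x ∈ I ^ n)
    (hsurj : ∀ (n : ℕ) (b : B), ∃ a : A, b - α a ∈ J ^ n) :
    Nonempty (AdicCompletion I A ≃+* AdicCompletion J B) := by
  let q : ∀ n : ℕ, A ⧸ I ^ n →+* B ⧸ J ^ n := fun n =>
    Ideal.quotientMap (J ^ n) α (fun x hx => hmap n x hx)
  have hq : ∀ n, Function.Bijective (q n) := by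
    intro n
    constructor
    · exact Ideal.quotientMap_injective' (fun x hx => hinj n x hx)
    · intro y
      obtain ⟨b, rfl⟩ := Ideal.Quotient.mk_surjective y
      obtain ⟨a, ha⟩ := hsurj n b
      refine ⟨Ideal.Quotient.mk _ a, ?_⟩
      exact (Ideal.Quotient.eq.mpr ha).symm
  let e : ∀ n : ℕ, A ⧸ I ^ n ≃+* B ⧸ J ^ n := fun n => RingEquiv.ofBijective (q n) (hq n)
  have he : ∀ {m n : ℕ} (hle : m ≤ n) (x : A ⧸ I ^ n),
      Ideal.Quotient.factorPow J hle (e n x) = e m (Ideal.Quotient.factorPow I hle x) := by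
    intro m n hle x
    obtain ⟨a, rfl⟩ := Ideal.Quotient.mk_surjective x
    rfl
  have he' : ∀ {m n : ℕ} (hle : m ≤ n) (y : B ⧸ J ^ n),
      Ideal.Quotient.factorPow I hle ((e n).symm y) =
        (e m).symm (Ideal.Quotient.factorPow J hle y) := by
    intro m n hle y
    apply (e m).injective
    rw [← he hle]
    simp
  let Φ : AdicCompletion I A →+* AdicCompletion J B :=
    AdicCompletion.liftRingHom J
      (fun n => ((e n : A ⧸ I ^ n →+* B ⧸ J ^ n)).comp
        (AdicCompletion.evalₐ I n : AdicCompletion I A →+* A ⧸ I ^ n))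
      (by
        intro m n hle
        ext x
        simp only [RingHom.coe_comp, Function.comp_apply, RingHom.coe_coe]
        rw [he hle, L10_factorPow_evalₐ])
  let Ψ : AdicCompletion J B →+* AdicCompletion I A :=
    AdicCompletion.liftRingHom I
      (fun n => (((e n).symm : B ⧸ J ^ n →+* A ⧸ I ^ n)).comp
        (AdicCompletion.evalₐ J n : AdicCompletion J B →+* B ⧸ J ^ n))
      (by
        intro m n hle
        ext x
        simp only [RingHom.coe_comp, Function.comp_apply, RingHom.coe_coe]
        rw [he' hle, L10_factorPow_evalₐ])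
  refine ⟨RingEquiv.ofRingHom Φ Ψ ?_ ?_⟩
  · refine RingHom.ext fun y => ?_
    refine AdicCompletion.ext_evalₐ fun n => ?_
    simp [Φ, Ψ]
  · refine RingHom.ext fun y => ?_
    refine AdicCompletion.ext_evalₐ fun n => ?_
    simp [Φ, Ψ]

/-- Lemma E: a "constant term" ring hom `c` and a vector of `c`-derivations `lam` define an algebra
hom to the first infinitesimal neighbourhood of the origin in affine space. -/
theorem L10_exists_algHom_quot_sq {K R : Type*} [Field K] [CommRing R] [Algebra K R]
    {σ : Type*} [Fintype σ] (c : R →+* K) (lam : R → σ → K)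
    (hc : ∀ a : K, c (algebraMap K R a) = a)
    (hadd : ∀ r s, lam (r + s) = lam r + lam s)
    (hmul : ∀ r s, lam (r * s) = c r • lam s + c s • lam r)
    (halg : ∀ a : K, lam (algebraMap K R a) = 0) :
    ∃ σ₂ : R →ₐ[K] MvPolynomial σ K ⧸ (MvPolynomial.idealOfVars σ K) ^ 2,
      ∀ r, σ₂ r = Ideal.Quotient.mk _
        (MvPolynomial.C (c r) + ∑ i, MvPolynomial.C (lam r i) * MvPolynomial.X i) := by
  classical
  let L : (σ → K) → MvPolynomial σ K := fun v => ∑ i, MvPolynomial.C (v i) * MvPolynomial.X i
  have hL_add : ∀ v w, L (v + w) = L v + L w := by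
    intro v w
    simp only [L, Pi.add_apply, map_add, add_mul, Finset.sum_add_distrib]
  have hL_smul : ∀ (a : K) v, L (a • v) = MvPolynomial.C a * L v := by
    intro a v
    simp only [L, Pi.smul_apply, smul_eq_mul, map_mul, Finset.mul_sum, mul_assoc]
  have hL_zero : L 0 = 0 := by simp [L]
  have hL_mem : ∀ v, L v ∈ MvPolynomial.idealOfVars σ K := by
    intro v
    refine Ideal.sum_mem _ fun i _ => Ideal.mul_mem_left _ _ ?_
    exact Ideal.subset_span (Set.mem_range_self i)
  let Λ : R → MvPolynomial σ K := fun r => MvPolynomial.C (c r) + L (lam r)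
  refine ⟨{ toFun := fun r => Ideal.Quotient.mk _ (Λ r)
            map_one' := ?_
            map_mul' := ?_
            map_zero' := ?_
            map_add' := ?_
            commutes' := ?_ }, fun r => rfl⟩
  · have h1 : lam 1 = 0 := by simpa using halg 1
    simp [Λ, h1, hL_zero]
  · intro r s
    rw [← map_mul, Ideal.Quotient.eq]
    have e : Λ (r * s) - Λ r * Λ s = - (L (lam r) * L (lam s)) := by
      simp only [Λ, hmul, hL_add, hL_smul, map_mul]
      ring
    rw [e, pow_two]
    exact neg_mem (Ideal.mul_mem_mul (hL_mem _) (hL_mem _))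
  · have h0 : lam 0 = 0 := by simpa using halg 0
    simp [Λ, h0, hL_zero]
  · intro r s
    rw [← map_add]
    congr 1
    simp only [Λ, hadd, hL_add, map_add]
    ring
  · intro a
    simp only [Λ, hc, halg, hL_zero, add_zero]
    rfl

/-- L10 (U2, completion): the completion of a noetherian local formally smooth `K`-algebra with
residue field `K` is a power series ring. -/
theorem L10_adicCompletion_equiv (K R : Type*) [Field K] [CommRing R] [Algebra K R]
    [IsLocalRing R] [IsNoetherianRing R] [Algebra.FormallySmooth K R]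
    (hres : Function.Bijective (algebraMap K (ResidueField R))) :
    ∃ g : ℕ, Nonempty (AdicCompletion (maximalIdeal R) R ≃+* MvPowerSeries (Fin g) K) := by
  classical
  let e : K ≃+* ResidueField R := RingEquiv.ofBijective (algebraMap K (ResidueField R)) hres
  let c : R →+* K := (e.symm : ResidueField R →+* K).comp (residue R)
  have hc_res : ∀ r, e (c r) = residue R r := fun r => by simp [c]
  have hc : ∀ a : K, c (algebraMap K R a) = a := by
    intro a
    apply e.injective
    rw [hc_res]
    rfl
  have hρ : ∀ r : R, r - algebraMap K R (c r) ∈ maximalIdeal R := by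
    intro r
    rw [← IsLocalRing.residue_eq_zero_iff, map_sub, sub_eq_zero, ← hc_res r]
    rfl
  have hct : ∀ y ∈ maximalIdeal R, c y = 0 := by
    intro y hy
    apply e.injective
    rw [hc_res, map_zero]
    exact (IsLocalRing.residue_eq_zero_iff y).mpr hy
  let g := Module.finrank (ResidueField R) (CotangentSpace R)
  let b : Module.Basis (Fin g) (ResidueField R) (CotangentSpace R) := Module.finBasis _ _
  choose t' ht' using fun i => (maximalIdeal R).toCotangent_surjective (b i)
  let t : Fin g → R := fun i => (t' i : R)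
  have ht_span : Ideal.span (Set.range t) = maximalIdeal R := by
    have h1 : Submodule.span (ResidueField R)
        ((maximalIdeal R).toCotangent '' Set.range t') = ⊤ := by
      rw [← Set.range_comp]
      have : ((maximalIdeal R).toCotangent ∘ t') = b := funext ht'
      rw [this]
      exact b.span_eq
    have h2 := CotangentSpace.span_image_eq_top_iff.mp h1
    have h3 := congrArg (Submodule.map (maximalIdeal R).subtype) h2
    rw [Submodule.map_span, Submodule.map_top, Submodule.range_subtype, ← Set.range_comp] at h3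
    exact h3
  let ρ : R → maximalIdeal R := fun r => ⟨r - algebraMap K R (c r), hρ r⟩
  let lam : R → Fin g → K :=
    fun r i => e.symm (b.repr ((maximalIdeal R).toCotangent (ρ r)) i)
  have hρ_add : ∀ r s, ρ (r + s) = ρ r + ρ s := by
    intro r s
    apply Subtype.ext
    simp only [ρ, map_add, Submodule.coe_add]
    ring
  have hρ_mul : ∀ r s, ρ (r * s) = r • ρ s + (algebraMap K R (c s)) • ρ r := by
    intro r s
    apply Subtype.ext
    simp only [ρ, map_mul, Submodule.coe_add, Submodule.coe_smul, smul_eq_mul]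
    ring
  have hρ_alg : ∀ a, ρ (algebraMap K R a) = 0 := by
    intro a
    apply Subtype.ext
    simp [ρ, hc]
  have hlam_add : ∀ r s, lam (r + s) = lam r + lam s := by
    intro r s
    funext i
    simp [lam, hρ_add]
  have hsm : ∀ (r : R) (v : CotangentSpace R) (i : Fin g),
      e.symm (b.repr (r • v) i) = c r * e.symm (b.repr v i) := by
    intro r v i
    rw [← algebraMap_smul (ResidueField R) r v, map_smul, Finsupp.smul_apply, smul_eq_mul,
      map_mul]
    rfl
  have hlam_mul : ∀ r s, lam (r * s) = c r • lam s + c s • lam r := by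
    intro r s
    funext i
    simp only [lam, hρ_mul, map_add, Finsupp.coe_add, Pi.add_apply, Pi.smul_apply, smul_eq_mul,
      map_smul, hsm, hc]
  have hlam_alg : ∀ a, lam (algebraMap K R a) = 0 := by
    intro a
    funext i
    simp [lam, hρ_alg]
  obtain ⟨σ₂, hσ₂⟩ := L10_exists_algHom_quot_sq c lam hc hlam_add hlam_mul hlam_alg
  have hσ₂t : ∀ i, σ₂ (t i) = Ideal.Quotient.mk _ (MvPolynomial.X i) := by
    intro i
    rw [hσ₂]
    have h1 : c (t i) = 0 := hct _ (t' i).2
    have h2 : ρ (t i) = t' i := by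
      apply Subtype.ext
      simp [ρ, h1, t]
    have h3 : ∀ j, lam (t i) j = if j = i then 1 else 0 := by
      intro j
      simp only [lam, h2, ht', Module.Basis.repr_self, Finsupp.single_apply]
      by_cases hij : j = i
      · subst hij
        simp
      · have hji : ¬ i = j := fun h => hij h.symm
        simp [hij, hji]
    simp [h1, h3]
  let α : MvPolynomial (Fin g) K →ₐ[K] R := MvPolynomial.aeval t
  have hσ₂α : ∀ p, σ₂ (α p) = Ideal.Quotient.mk _ p := by
    intro p
    have : σ₂.comp α = Ideal.Quotient.mkₐ K _ := by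
      apply MvPolynomial.algHom_ext
      intro i
      simp [α, hσ₂t]
    exact AlgHom.congr_fun this p
  have hσ₂m : ∀ y ∈ maximalIdeal R,
      σ₂ y ∈ (MvPolynomial.idealOfVars (Fin g) K).map (Ideal.Quotient.mk _) := by
    intro y hy
    rw [hσ₂, hct y hy, map_zero, zero_add]
    apply Ideal.mem_map_of_mem
    exact Ideal.sum_mem _ fun i _ =>
      Ideal.mul_mem_left _ _ (Ideal.subset_span (Set.mem_range_self i))
  have hmap : ∀ (n : ℕ) (x : MvPolynomial (Fin g) K),
      x ∈ (MvPolynomial.idealOfVars (Fin g) K) ^ n →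
        (α : MvPolynomial (Fin g) K →+* R) x ∈ maximalIdeal R ^ n := by
    intro n x hx
    have h : ((MvPolynomial.idealOfVars (Fin g) K) ^ n).map (α : MvPolynomial (Fin g) K →+* R) ≤
        maximalIdeal R ^ n := by
      rw [Ideal.map_pow]
      refine Ideal.pow_right_mono ?_ n
      rw [MvPolynomial.idealOfVars, Ideal.map_span, Ideal.span_le]
      rintro _ ⟨_, ⟨i, rfl⟩, rfl⟩
      have hαX : (α : MvPolynomial (Fin g) K →+* R) (MvPolynomial.X i) = t i := by simp [α]
      rw [SetLike.mem_coe, hαX]
      exact (t' i).2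
    exact h (Ideal.mem_map_of_mem _ hx)
  have hinj := L10_mem_pow_of_map_mem_pow α (MvPolynomial.idealOfVars (Fin g) K)
    (maximalIdeal R) σ₂ hσ₂α hσ₂m
  have hsurj := L10_exists_sub_mem_pow (maximalIdeal R) t ht_span (fun r => ⟨c r, hρ r⟩)
  obtain ⟨E⟩ := L10_adicCompletion_ringEquiv (MvPolynomial.idealOfVars (Fin g) K)
    (maximalIdeal R) (α : MvPolynomial (Fin g) K →+* R) hmap hinj hsurj
  exact ⟨g, ⟨E.symm.trans (MvPowerSeries.toAdicCompletionAlgEquiv (Fin g) K).symm.toRingEquiv⟩⟩

end Fermat.Agent.S26.UFD
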