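import Mathlib

/-!
S26 package P4 UFD, leaf L8 (U1): `MvPowerSeries (Fin n) K` is a unique factorization domain for
every field `K` (helper5596).  Statement = `Skeleton.L8_ufd_mvPowerSeries` of origin/helper256.

Proof: induction on `n`.  `K[[x_0..x_n]] = A[[X]]` with `A = K[[x_1..x_n]]` a complete local UFD.
Kaplansky's criterion: every nonzero prime `P` contains a prime element.  Take `0 ≠ f ∈ P`; a shear
automorphism `x_j ↦ x_j + x_0 ^ (w j)` (weights chosen from a lexicographically minimal monomial)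
makes `f` regular in `X`; Weierstrass preparation gives a distinguished polynomial in `P`, one of
whose irreducible factors in `A[X]` (Gauss) lies in `P`, is again distinguished up to a unit, and
is prime in `A[[X]]` because `A[X]/(p) ≃ A[[X]]/(p)`.
-/

set_option autoImplicit false

namespace Fermat.Agent.S26.UFD

open IsLocalRing

instance L8_mvPowerSeries_isDomain (σ : Type*) (R : Type*) [CommRing R] [IsDomain R] :
    IsDomain (MvPowerSeries σ R) :=
  NoZeroDivisors.to_isDomain _

section MaxIdeal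

variable (σ : Type*) [Finite σ] (K : Type*) [Field K]

omit [Finite σ] in
theorem L8_mvPolynomial_idealOfVars_isMaximal : (MvPolynomial.idealOfVars σ K).IsMaximal := by
  have hker : MvPolynomial.idealOfVars σ K =
      RingHom.ker (MvPolynomial.constantCoeff : MvPolynomial σ K →+* K) := by
    ext p
    rw [← pow_one (MvPolynomial.idealOfVars σ K), MvPolynomial.mem_pow_idealOfVars_iff',
      RingHom.mem_ker, MvPolynomial.constantCoeff_eq]
    constructor
    · intro h; exact h 0 (by simp)
    · intro h x hx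
      have : x = 0 := by
        have := Finsupp.degree_eq_zero_iff x
        simp_all
      rw [this]; exact h
  rw [hker]
  exact RingHom.ker_isMaximal_of_surjective _ (fun c => ⟨MvPolynomial.C c, by simp⟩)

theorem L8_mvPowerSeries_maximalIdeal_eq :
    maximalIdeal (MvPowerSeries σ K) = Ideal.span (Set.range MvPowerSeries.X) := by
  symm
  apply IsLocalRing.eq_maximalIdeal
  have h1 : Ideal.map (MvPowerSeries.toAdicCompletionAlgEquiv σ K).toRingEquiv
      (Ideal.span (Set.range MvPowerSeries.X)) =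
      (MvPolynomial.idealOfVars σ K).map (algebraMap _ _) := by
    simp_rw [Ideal.map_span, ← Set.range_comp]
    congr 2; ext1
    simp [AdicCompletion.algebraMap_apply, ← MvPolynomial.coe_X,
      MvPowerSeries.toAdicCompletion_coe]
  have hmax := L8_mvPolynomial_idealOfVars_isMaximal σ K
  have h2 := AdicCompletion.isMaximal_map_of_le (MvPolynomial.idealOfVars σ K)
    (MvPolynomial.idealOfVars σ K) le_rfl (MvPolynomial.idealOfVars_fg σ K)
  rw [← h1] at h2
  exact (Ideal.isMaximal_map_iff_of_bijective _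
    (MvPowerSeries.toAdicCompletionAlgEquiv σ K).toRingEquiv.bijective).1 h2

instance L8_mvPowerSeries_isAdicComplete_maximalIdeal :
    IsAdicComplete (maximalIdeal (MvPowerSeries σ K)) (MvPowerSeries σ K) := by
  rw [L8_mvPowerSeries_maximalIdeal_eq]
  infer_instance

end MaxIdeal

/-- Weights separating a "lexicographically minimal" element of a nonempty set of exponent
vectors: there are positive weights `w` with `w 0 = 1` and an element `d₀` of `S` whose weighted
degree is strictly smaller than that of every other element of `S`. -/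
theorem L8_exists_weights_fun (n : ℕ) (S : Set (Fin (n + 1) → ℕ)) (hS : S.Nonempty) :
    ∃ (w : Fin (n + 1) → ℕ) (d₀ : Fin (n + 1) → ℕ), w 0 = 1 ∧ (∀ i, 0 < w i) ∧ d₀ ∈ S ∧
      ∀ d ∈ S, d ≠ d₀ → ∑ i, w i * d₀ i < ∑ i, w i * d i := by
  induction n with
  | zero =>
    obtain ⟨d₀, hd₀, hmin⟩ := (measure (fun d : Fin 1 → ℕ => d 0)).wf.has_min S hS
    refine ⟨fun _ => 1, d₀, rfl, fun _ => Nat.one_pos, hd₀, fun d hd hne => ?_⟩
    have h1 : ¬ d 0 < d₀ 0 := hmin d hd
    have h2 : d 0 ≠ d₀ 0 := fun h => hne (funext fun i => by rw [Fin.fin_one_eq_zero i]; exact h)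
    simp only [Fin.sum_univ_succ, Fin.sum_univ_zero, one_mul, add_zero]
    omega
  | succ n ih =>
    obtain ⟨d₁, hd₁, hmin⟩ :=
      (measure (fun d : Fin (n + 2) → ℕ => d (Fin.last (n + 1)))).wf.has_min S hS
    set m := d₁ (Fin.last (n + 1)) with hm
    let S' : Set (Fin (n + 1) → ℕ) := {d' | (Fin.snoc d' m : Fin (n + 2) → ℕ) ∈ S}
    have hS' : S'.Nonempty := ⟨Fin.init d₁, by
      show (Fin.snoc (Fin.init d₁) m : Fin (n + 2) → ℕ) ∈ S
      rw [hm, Fin.snoc_init_self]; exact hd₁⟩
    obtain ⟨w', d₀', hw0, hwpos, hd₀', huniq⟩ := ih S' hS'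
    set E := 1 + ∑ i, w' i * d₀' i with hE
    refine ⟨Fin.snoc w' E, Fin.snoc d₀' m, ?_, ?_, hd₀', fun d hd hne => ?_⟩
    · have : (0 : Fin (n + 2)) = Fin.castSucc 0 := rfl
      rw [this, Fin.snoc_castSucc]; exact hw0
    · intro i
      refine Fin.lastCases ?_ (fun j => ?_) i
      · rw [Fin.snoc_last]; omega
      · rw [Fin.snoc_castSucc]; exact hwpos j
    · have hsum : ∀ d : Fin (n + 2) → ℕ, ∑ i, (Fin.snoc w' E : Fin (n + 2) → ℕ) i * d i =
          ∑ i, w' i * Fin.init d i + E * d (Fin.last (n + 1)) := by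
        intro d
        rw [Fin.sum_univ_castSucc]
        simp only [Fin.snoc_castSucc, Fin.snoc_last, Fin.init]
      rw [hsum, hsum]
      have hinit : Fin.init (Fin.snoc d₀' m : Fin (n + 2) → ℕ) = d₀' := Fin.init_snoc _ _
      rw [hinit, Fin.snoc_last]
      have hl : ¬ d (Fin.last (n + 1)) < m := hmin d hd
      rcases Nat.lt_or_ge m (d (Fin.last (n + 1))) with hlt | hge
      · have h3 : E * (m + 1) ≤ E * d (Fin.last (n + 1)) := Nat.mul_le_mul_left _ hlt
        have h4 : E * (m + 1) = E * m + E := by ring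
        have h5 : 0 ≤ ∑ i, w' i * Fin.init d i := Nat.zero_le _
        omega
      · have heq : d (Fin.last (n + 1)) = m := by omega
        have hd' : Fin.init d ∈ S' := by
          show (Fin.snoc (Fin.init d) m : Fin (n + 2) → ℕ) ∈ S
          rw [← heq, Fin.snoc_init_self]; exact hd
        have hne' : Fin.init d ≠ d₀' := by
          intro h
          apply hne
          rw [← Fin.snoc_init_self d, h, heq]
        have := huniq _ hd' hne'
        rw [heq]
        omega

/-- Finsupp version of `L8_exists_weights_fun`. -/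
theorem L8_exists_weights (n : ℕ) (S : Set (Fin (n + 1) →₀ ℕ)) (hS : S.Nonempty) :
    ∃ (w : Fin (n + 1) → ℕ) (d₀ : Fin (n + 1) →₀ ℕ), w 0 = 1 ∧ (∀ i, 0 < w i) ∧ d₀ ∈ S ∧
      ∀ d ∈ S, d ≠ d₀ → ∑ i, w i * d₀ i < ∑ i, w i * d i := by
  obtain ⟨w, d₀, hw0, hwpos, ⟨e₀, he₀, rfl⟩, h⟩ :=
    L8_exists_weights_fun n ((fun d : Fin (n + 1) →₀ ℕ => (d : Fin (n + 1) → ℕ)) '' S)
      (hS.image _)
  exact ⟨w, e₀, hw0, hwpos, he₀, fun d hd hne =>
    h d ⟨d, hd, rfl⟩ (fun h' => hne (DFunLike.coe_injective h'))⟩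

section Shear

open MvPowerSeries

variable (n : ℕ) (K : Type*) [Field K]

/-- Evaluation of a power series in `x_0, …, x_n` at `x_1 = ⋯ = x_n = 0`. -/
noncomputable def L8_evZero : MvPowerSeries (Fin (n + 1)) K →+* PowerSeries K :=
  (PowerSeries.map (MvPowerSeries.constantCoeff (σ := Fin n) (R := K))).comp
    (MvPowerSeries.finSuccEquiv K n).toRingEquiv.toRingHom

theorem L8_evZero_apply (g : MvPowerSeries (Fin (n + 1)) K) :
    L8_evZero n K g = PowerSeries.map (MvPowerSeries.constantCoeff (σ := Fin n) (R := K))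
      (MvPowerSeries.finSuccEquiv K n g) := rfl

theorem L8_evZero_X_zero : L8_evZero n K (X 0) = PowerSeries.X := by
  rw [L8_evZero_apply, finSuccEquiv_X_zero, PowerSeries.map_X]

theorem L8_evZero_X_succ (j : Fin n) : L8_evZero n K (X j.succ) = 0 := by
  rw [L8_evZero_apply, finSuccEquiv_X_succ, PowerSeries.map_C]
  simp

theorem L8_coeff_evZero (m : ℕ) (g : MvPowerSeries (Fin (n + 1)) K) :
    PowerSeries.coeff m (L8_evZero n K g) = coeff (Finsupp.cons m 0) g := by
  rw [L8_evZero_apply, PowerSeries.coeff_map, ← coeff_coeff_finSuccEquiv,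
    coeff_zero_eq_constantCoeff_apply]

variable {n K}

/-- The family `x_0 ↦ x_0`, `x_j ↦ x_j + c • x_0 ^ (w j)` (`j ≠ 0`). -/
noncomputable def L8_shearFun (w : Fin (n + 1) → ℕ) (c : K) (s : Fin (n + 1)) :
    MvPowerSeries (Fin (n + 1)) K :=
  if s = 0 then X 0 else X s + c • X 0 ^ w s

theorem L8_shearFun_zero (w : Fin (n + 1) → ℕ) (c : K) : L8_shearFun w c 0 = X 0 := by
  simp [L8_shearFun]

theorem L8_shearFun_succ (w : Fin (n + 1) → ℕ) (c : K) (j : Fin n) :
    L8_shearFun w c j.succ = X j.succ + c • X 0 ^ w j.succ := by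
  simp [L8_shearFun, Fin.succ_ne_zero]

theorem L8_shearFun_hasSubst (w : Fin (n + 1) → ℕ) (hw : ∀ i, 0 < w i) (c : K) :
    HasSubst (L8_shearFun w c) :=
  hasSubst_of_constantCoeff_zero fun s => by
    unfold L8_shearFun
    split_ifs with h
    · simp
    · simp [(hw s).ne']

theorem L8_subst_shearFun_shearFun (w : Fin (n + 1) → ℕ) (hw : ∀ i, 0 < w i) (c : K)
    (s : Fin (n + 1)) :
    subst (L8_shearFun w c) (L8_shearFun w (-c) s) = (X s : MvPowerSeries (Fin (n + 1)) K) := by
  have ha := L8_shearFun_hasSubst w hw c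
  refine Fin.cases ?_ (fun j => ?_) s
  · rw [L8_shearFun_zero, subst_X ha, L8_shearFun_zero]
  · rw [L8_shearFun_succ, subst_add ha, subst_smul ha, subst_pow ha, subst_X ha, subst_X ha,
      L8_shearFun_zero, L8_shearFun_succ]
    simp [add_assoc]

theorem L8_subst_shearFun_comp (w : Fin (n + 1) → ℕ) (hw : ∀ i, 0 < w i) (c : K)
    (f : MvPowerSeries (Fin (n + 1)) K) :
    subst (L8_shearFun w c) (subst (L8_shearFun w (-c)) f) = f := by
  rw [subst_comp_subst_apply (L8_shearFun_hasSubst w hw (-c)) (L8_shearFun_hasSubst w hw c)]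
  have : (fun s => subst (L8_shearFun w c) (L8_shearFun w (-c) s)) =
      (X : Fin (n + 1) → MvPowerSeries (Fin (n + 1)) K) :=
    funext fun s => L8_subst_shearFun_shearFun w hw c s
  rw [this, subst_self]; rfl

/-- The shear automorphism `x_0 ↦ x_0`, `x_j ↦ x_j + x_0 ^ (w j)` of the power series ring. -/
noncomputable def L8_shear (w : Fin (n + 1) → ℕ) (hw : ∀ i, 0 < w i) :
    MvPowerSeries (Fin (n + 1)) K ≃ₐ[K] MvPowerSeries (Fin (n + 1)) K :=
  AlgEquiv.ofAlgHom (substAlgHom (L8_shearFun_hasSubst w hw 1))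
    (substAlgHom (L8_shearFun_hasSubst w hw (-1)))
    (AlgHom.ext fun f => by
      simp only [AlgHom.coe_comp, Function.comp_apply, substAlgHom_apply, AlgHom.coe_id, id_eq]
      exact L8_subst_shearFun_comp w hw 1 f)
    (AlgHom.ext fun f => by
      simp only [AlgHom.coe_comp, Function.comp_apply, substAlgHom_apply, AlgHom.coe_id, id_eq]
      have := L8_subst_shearFun_comp w hw (-1 : K) f
      rwa [neg_neg] at this)

theorem L8_shear_apply (w : Fin (n + 1) → ℕ) (hw : ∀ i, 0 < w i)
    (f : MvPowerSeries (Fin (n + 1)) K) : L8_shear w hw f = subst (L8_shearFun w 1) f := by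
  simp [L8_shear]

theorem L8_evZero_shearFun (w : Fin (n + 1) → ℕ) (hw0 : w 0 = 1) (s : Fin (n + 1)) :
    L8_evZero n K (L8_shearFun w 1 s) = PowerSeries.X ^ w s := by
  refine Fin.cases ?_ (fun j => ?_) s
  · rw [L8_shearFun_zero, L8_evZero_X_zero, hw0, pow_one]
  · rw [L8_shearFun_succ, map_add, L8_evZero_X_succ, one_smul, map_pow, L8_evZero_X_zero, zero_add]

theorem L8_coeff_evZero_shear (w : Fin (n + 1) → ℕ) (hw : ∀ i, 0 < w i) (hw0 : w 0 = 1)
    (f : MvPowerSeries (Fin (n + 1)) K) (m : ℕ) :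
    PowerSeries.coeff m (L8_evZero n K (L8_shear w hw f)) =
      ∑ᶠ d : Fin (n + 1) →₀ ℕ, if m = ∑ i, w i * d i then coeff d f else 0 := by
  rw [L8_shear_apply, L8_coeff_evZero, coeff_subst (L8_shearFun_hasSubst w hw 1)]
  refine finsum_congr fun d => ?_
  rw [← L8_coeff_evZero, map_finsuppProd]
  have h1 : (d.prod fun s e => L8_evZero n K (L8_shearFun w 1 s ^ e)) =
      PowerSeries.X ^ (∑ i, w i * d i) := by
    rw [Finsupp.prod_fintype _ _ (fun i => by simp)]
    rw [← Finset.prod_pow_eq_pow_sum]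
    refine Finset.prod_congr rfl fun i _ => ?_
    rw [map_pow, L8_evZero_shearFun w hw0, ← pow_mul]
  rw [h1, PowerSeries.coeff_X_pow]
  split_ifs <;> simp

theorem L8_exists_shear_evZero_ne_zero (f : MvPowerSeries (Fin (n + 1)) K) (hf : f ≠ 0) :
    ∃ θ : MvPowerSeries (Fin (n + 1)) K ≃ₐ[K] MvPowerSeries (Fin (n + 1)) K,
      L8_evZero n K (θ f) ≠ 0 := by
  have hS : {d : Fin (n + 1) →₀ ℕ | coeff d f ≠ 0}.Nonempty := by
    by_contra hcon
    apply hf
    ext d
    by_contra hd
    exact hcon ⟨d, by simpa using hd⟩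
  obtain ⟨w, d₀, hw0, hwpos, hd₀, huniq⟩ := L8_exists_weights n _ hS
  refine ⟨L8_shear w hwpos, fun h0 => ?_⟩
  have h1 := L8_coeff_evZero_shear w hwpos hw0 f (∑ i, w i * d₀ i)
  rw [h0, map_zero, finsum_eq_single _ d₀, if_pos rfl] at h1
  · exact hd₀ h1.symm
  · intro d hd
    split_ifs with h
    · by_contra hne
      have := huniq d hne hd
      omega
    · rfl

end Shear

section Weierstrass

open Polynomial in
/-- A monic divisor of a distinguished polynomial over a local domain is distinguished. -/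
theorem L8_isDistinguishedAt_of_monic_of_dvd {A : Type*} [CommRing A] [IsLocalRing A]
    {g p : A[X]} (hg : g.IsDistinguishedAt (maximalIdeal A)) (hp : p.Monic) (hpg : p ∣ g) :
    p.IsDistinguishedAt (maximalIdeal A) := by
  let := Ideal.Quotient.field (maximalIdeal A)
  have hmap : p.map (Ideal.Quotient.mk (maximalIdeal A)) ∣ X ^ g.natDegree := by
    rw [← hg.map_eq_X_pow]
    exact Polynomial.map_dvd _ hpg
  obtain ⟨i, -, hi⟩ := (dvd_prime_pow Polynomial.prime_X _).1 hmap
  have hpi : p.map (Ideal.Quotient.mk (maximalIdeal A)) = X ^ i :=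
    Polynomial.eq_of_monic_of_associated (hp.map _) (Polynomial.monic_X_pow i) hi
  have hdeg : i = p.natDegree := by
    have := congrArg Polynomial.natDegree hpi
    rw [hp.natDegree_map, Polynomial.natDegree_X_pow] at this
    exact this.symm
  refine ⟨⟨fun {k} hk => ?_⟩, hp⟩
  have := congrArg (Polynomial.coeff · k) hpi
  simp only [Polynomial.coeff_map, Polynomial.coeff_X_pow] at this
  rw [if_neg (by omega)] at this
  exact Ideal.Quotient.eq_zero_iff_mem.1 this

open Polynomial in
/-- **Weierstrass preparation, prime-element form.**  Over a complete local unique factorization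
domain `A`, a prime ideal of `A⟦X⟧` containing a power series whose reduction modulo the maximal
ideal is nonzero contains a prime element. -/
theorem L8_exists_prime_mem_of_map_residue_ne_zero {A : Type*} [CommRing A] [IsDomain A]
    [IsLocalRing A] [UniqueFactorizationMonoid A] [IsAdicComplete (maximalIdeal A) A]
    (P : Ideal (PowerSeries A)) [hP : P.IsPrime] (f : PowerSeries A) (hf : f ∈ P)
    (hreg : f.map (residue A) ≠ 0) : ∃ q ∈ P, Prime q := by
  obtain ⟨g, h, H⟩ := PowerSeries.exists_isWeierstrassFactorization hreg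
  have hgP : (g : PowerSeries A) ∈ P := by
    obtain ⟨h', hh'⟩ := H.isUnit.exists_right_inv
    have : (g : PowerSeries A) = f * h' := by rw [H.eq_mul, mul_assoc, hh', mul_one]
    rw [this]; exact P.mul_mem_right _ hf
  have hg0 : g ≠ 0 := H.isDistinguishedAt.monic.ne_zero
  -- the prime ideal of `A[X]` below `P`
  let P' : Ideal A[X] := P.comap (Polynomial.coeToPowerSeries.ringHom (R := A))
  have hP' : P'.IsPrime := Ideal.comap_isPrime _ P
  have hgP' : g ∈ P' := hgP
  obtain ⟨p, hpP', hpirr, hpg⟩ : ∃ p ∈ P', Irreducible p ∧ p ∣ g := by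
    have hprod := UniqueFactorizationMonoid.factors_prod hg0
    have hmem : (UniqueFactorizationMonoid.factors g).prod ∈ P' := by
      obtain ⟨u, hu⟩ := hprod.symm
      rw [← hu]; exact P'.mul_mem_right _ hgP'
    obtain ⟨p, hp, hpP'⟩ := (Ideal.IsPrime.multiset_prod_mem_iff_exists_mem hP' _).1 hmem
    exact ⟨p, hpP', UniqueFactorizationMonoid.irreducible_of_factor p hp,
      UniqueFactorizationMonoid.dvd_of_mem_factors hp⟩
  obtain ⟨r, hr⟩ := hpg
  have hlc : p.leadingCoeff * r.leadingCoeff = 1 := by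
    rw [← Polynomial.leadingCoeff_mul, ← hr]; exact H.isDistinguishedAt.monic
  -- normalise `p` to a monic polynomial
  set p₀ : A[X] := Polynomial.C r.leadingCoeff * p with hp₀
  have hunit : IsUnit (Polynomial.C r.leadingCoeff : A[X]) :=
    Polynomial.isUnit_C.2 (IsUnit.of_mul_eq_one _ (by rw [mul_comm]; exact hlc))
  have hassoc : Associated p p₀ := by
    obtain ⟨u, hu⟩ := hunit
    exact ⟨u, by rw [hu, hp₀, mul_comm]⟩
  have hp₀monic : p₀.Monic := by
    have hp0 : p ≠ 0 := hpirr.ne_zero
    rw [Polynomial.Monic, hp₀, Polynomial.leadingCoeff_mul, Polynomial.leadingCoeff_C, mul_comm]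
    exact hlc
  have hp₀dvd : p₀ ∣ g := hassoc.symm.dvd.trans ⟨r, hr⟩
  have hp₀prime : Prime p₀ := hassoc.prime (UniqueFactorizationMonoid.irreducible_iff_prime.1 hpirr)
  have hp₀P' : p₀ ∈ P' := P'.mul_mem_left _ hpP'
  have hdist := L8_isDistinguishedAt_of_monic_of_dvd H.isDistinguishedAt hp₀monic hp₀dvd
  have hdom : IsDomain (A[X] ⧸ Ideal.span {p₀}) :=
    (Ideal.Quotient.isDomain_iff_prime _).2
      ((Ideal.span_singleton_prime hp₀prime.ne_zero).2 hp₀prime)
  have hdom' : IsDomain (PowerSeries A ⧸ Ideal.span {(p₀ : PowerSeries A)}) :=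
    hdist.algEquivQuotient.symm.toRingEquiv.toMulEquiv.isDomain _
  have hne : (p₀ : PowerSeries A) ≠ 0 := by
    intro h0
    exact hp₀prime.ne_zero (Polynomial.coe_injective A (by simpa using h0))
  exact ⟨(p₀ : PowerSeries A), hp₀P',
    (Ideal.span_singleton_prime hne).1 ((Ideal.Quotient.isDomain_iff_prime _).1 hdom')⟩

end Weierstrass

section UFD

variable (K : Type*) [Field K]

/-- **Formal power series in finitely many variables over a field form a unique factorization
domain** (`Fin n`-indexed version). -/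
theorem L8_ufd_mvPowerSeries (n : ℕ) : UniqueFactorizationMonoid (MvPowerSeries (Fin n) K) := by
  induction n with
  | zero =>
    exact (MvPowerSeries.isEmptyEquiv (Fin 0) K).toRingEquiv.toMulEquiv.symm.uniqueFactorizationMonoid
      inferInstance
  | succ n ih =>
    rw [UniqueFactorizationMonoid.iff_exists_prime_mem_of_isPrime]
    intro P hP0 hPprime
    obtain ⟨f, hfP, hf0⟩ := Submodule.exists_mem_ne_zero_of_ne_bot hP0
    obtain ⟨θ, hθ⟩ := L8_exists_shear_evZero_ne_zero f hf0
    let Φ : MvPowerSeries (Fin (n + 1)) K ≃+* PowerSeries (MvPowerSeries (Fin n) K) :=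
      θ.toRingEquiv.trans (MvPowerSeries.finSuccEquiv K n).toRingEquiv
    have hΦ : ∀ g, Φ g = MvPowerSeries.finSuccEquiv K n (θ g) := fun g => rfl
    have hP' : (P.map Φ).IsPrime := Ideal.map_isPrime_of_equiv Φ
    have hreg : (Φ f).map (residue (MvPowerSeries (Fin n) K)) ≠ 0 := by
      intro h0
      apply hθ
      ext m
      rw [L8_evZero_apply, PowerSeries.coeff_map, map_zero]
      have h1 := congrArg (PowerSeries.coeff m) h0
      rw [PowerSeries.coeff_map, map_zero, IsLocalRing.residue_eq_zero_iff,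
        IsLocalRing.mem_maximalIdeal, mem_nonunits_iff, MvPowerSeries.isUnit_iff_constantCoeff,
        hΦ] at h1
      simpa using h1
    obtain ⟨q, hqP', hq⟩ :=
      L8_exists_prime_mem_of_map_residue_ne_zero (P.map Φ) (Φ f) (Ideal.mem_map_of_mem _ hfP) hreg
    refine ⟨Φ.symm q, ?_, (MulEquiv.prime_iff Φ.symm.toMulEquiv).2 hq⟩
    obtain ⟨x, hx, rfl⟩ := (Ideal.mem_map_of_equiv Φ q).1 hqP'
    rwa [RingEquiv.symm_apply_apply]

/-- **Formal power series in finitely many variables over a field form a unique factorization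
domain.** -/
theorem L8_mvPowerSeries_ufm (σ : Type*) [Finite σ] :
    UniqueFactorizationMonoid (MvPowerSeries σ K) := by
  cases nonempty_fintype σ
  exact (MvPowerSeries.renameEquiv K (Fintype.equivFin σ)).toRingEquiv.toMulEquiv.symm.uniqueFactorizationMonoid
    (L8_ufd_mvPowerSeries K (Fintype.card σ))

end UFD

end Fermat.Agent.S26.UFD
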