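import Fermat.Agent.S26.UFD.ExportOf
import Fermat.Agent.S26.UFD.Descent
import Fermat.Agent.S26.UFD.L8_UfdMvPowerSeries
import Fermat.Agent.S26.UFD.L10_AdicCompletionEquiv

/-!
# S26 package P4 UFD -- EXPORTS (sub-lead helper256)

* `Fermat.Agent.S26.UFD.ufd_of_formallySmooth` : a noetherian local formally smooth `K`-algebra with
  residue field `K` is a UFD domain (leaf L11 without hypothesis).
* `Fermat.Agent.S26.UFD.ufd_localization_prime` : EXPORT 1.
* `Fermat.Agent.S26.UFD.ufd_stalk_of_smooth` : EXPORT 2.
* `Fermat.Agent.S26.UFD.isIntegrallyClosed_stalk_of_smooth`, `isIntegrallyClosed_localization_prime`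
  : normality corollaries.

Leaves used: L0, L1, L3 (helper256), L8 (helper5596), L9 = `ufd_of_adicCompletion` (helper1223),
L10 (helper263).
-/

set_option autoImplicit false

universe u

namespace Fermat.Agent.S26.UFD

open IsLocalRing AlgebraicGeometry CategoryTheory

/-- L11 (hypothesis form, exact Skeleton statement). -/
theorem L11_ufd_of_formallySmooth_of (K R : Type*) [Field K] [CommRing R] [Algebra K R]
    [IsLocalRing R] [IsNoetherianRing R] [Algebra.FormallySmooth K R]
    (hres : Function.Bijective (algebraMap K (ResidueField R)))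
    (hU1 : ∀ n, UniqueFactorizationMonoid (MvPowerSeries (Fin n) K)) :
    IsDomain R ∧ UniqueFactorizationMonoid R := by
  obtain ⟨g, ⟨e⟩⟩ := L10_adicCompletion_equiv K R hres
  have hdom : IsDomain (AdicCompletion (maximalIdeal R) R) :=
    MulEquiv.isDomain (MvPowerSeries (Fin g) K) e.toMulEquiv
  have hufd : UniqueFactorizationMonoid (AdicCompletion (maximalIdeal R) R) :=
    e.symm.toMulEquiv.uniqueFactorizationMonoid (hU1 g)
  exact ufd_of_adicCompletion R

/-- U-main: a noetherian local formally smooth `K`-algebra with residue field `K` is a UFD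
domain. -/
theorem ufd_of_formallySmooth (K R : Type*) [Field K] [CommRing R] [Algebra K R]
    [IsLocalRing R] [IsNoetherianRing R] [Algebra.FormallySmooth K R]
    (hres : Function.Bijective (algebraMap K (ResidueField R))) :
    IsDomain R ∧ UniqueFactorizationMonoid R :=
  L11_ufd_of_formallySmooth_of K R hres (fun n => L8_ufd_mvPowerSeries K n)

/-- EXPORT 1 (algebra): all local rings of a smooth algebra over an algebraically closed field are
UFD domains. -/
theorem ufd_localization_prime (K A : Type*) [Field K] [IsAlgClosed K] [CommRing A]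
    [Algebra K A] [Algebra.Smooth K A] (p : Ideal A) [p.IsPrime] :
    IsDomain (Localization.AtPrime p) ∧ UniqueFactorizationMonoid (Localization.AtPrime p) :=
  ufd_localization_prime_of K A (fun R _ _ _ _ _ hres => ufd_of_formallySmooth K R hres) p

/-- EXPORT 2 (schemes): all stalks of a smooth scheme over an algebraically closed field are UFD
domains. -/
theorem ufd_stalk_of_smooth {K : Type u} [Field K] [IsAlgClosed K] {X : Scheme.{u}}
    (f : X ⟶ Spec (CommRingCat.of K)) [Smooth f] (x : X) :
    IsDomain (X.presheaf.stalk x) ∧ UniqueFactorizationMonoid (X.presheaf.stalk x) :=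
  ufd_stalk_of_smooth_of (fun R _ _ _ _ _ hres => ufd_of_formallySmooth K R hres) f x

/-- Normality of the local rings of a smooth algebra over an algebraically closed field. -/
theorem isIntegrallyClosed_localization_prime (K A : Type*) [Field K] [IsAlgClosed K] [CommRing A]
    [Algebra K A] [Algebra.Smooth K A] (p : Ideal A) [p.IsPrime] :
    IsDomain (Localization.AtPrime p) ∧ IsIntegrallyClosed (Localization.AtPrime p) := by
  obtain ⟨h1, h2⟩ := ufd_localization_prime K A p
  exact ⟨h1, inferInstance⟩

/-- Normality of the stalks of a smooth scheme over an algebraically closed field. -/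
theorem isIntegrallyClosed_stalk_of_smooth {K : Type u} [Field K] [IsAlgClosed K] {X : Scheme.{u}}
    (f : X ⟶ Spec (CommRingCat.of K)) [Smooth f] (x : X) :
    IsDomain (X.presheaf.stalk x) ∧ IsIntegrallyClosed (X.presheaf.stalk x) := by
  obtain ⟨h1, h2⟩ := ufd_stalk_of_smooth f x
  exact ⟨h1, inferInstance⟩

end Fermat.Agent.S26.UFD
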