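import Mathlib

set_option autoImplicit false

universe u

namespace Fermat.Agent.S26.UFD

open AlgebraicGeometry CategoryTheory

/-- L1 (scheme export, hypothesis form): if all local rings of smooth `K`-algebras are UFD domains,
then so are all stalks of smooth `K`-schemes. -/
theorem L1_stalk_of_smooth_of {K : Type u} [Field K]
    (hU : ∀ (A : Type u) [CommRing A] [Algebra K A] [Algebra.Smooth K A] (p : Ideal A) [p.IsPrime],
      IsDomain (Localization.AtPrime p) ∧ UniqueFactorizationMonoid (Localization.AtPrime p))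
    {X : Scheme.{u}} (f : X ⟶ Spec (CommRingCat.of K)) [Smooth f] (x : X) :
    IsDomain (X.presheaf.stalk x) ∧ UniqueFactorizationMonoid (X.presheaf.stalk x) := by
  -- an affine open neighbourhood of `x`
  obtain ⟨_, ⟨U, hUaff, rfl⟩, hxU, -⟩ :=
    X.isBasis_affineOpens.exists_subset_of_mem_open (Set.mem_univ x) isOpen_univ
  -- the structure map `K → Γ(X, U)` is smooth
  have htop : IsAffineOpen (⊤ : (Spec (CommRingCat.of K)).Opens) := isAffineOpen_top _
  have hsm : RingHom.Smooth (f.appLE ⊤ U le_top).hom :=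
    HasRingHomProperty.appLE (P := @Smooth) f inferInstance ⟨⊤, htop⟩ ⟨U, hUaff⟩ le_top
  let φ : K →+* Γ(X, U) :=
    (f.appLE ⊤ U le_top).hom.comp (Scheme.ΓSpecIso (CommRingCat.of K)).inv.hom
  have hφ : RingHom.Smooth φ := by
    refine RingHom.Smooth.comp ?_ hsm
    exact RingHom.Smooth.of_bijective
      (ConcreteCategory.bijective_of_isIso (Scheme.ΓSpecIso (CommRingCat.of K)).inv)
  let algK : Algebra K Γ(X, U) := φ.toAlgebra
  have smK : Algebra.Smooth K Γ(X, U) := hφ
  -- the stalk is the localisation at a prime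
  let p : Ideal Γ(X, U) := (hUaff.primeIdealOf ⟨x, hxU⟩).asIdeal
  have hp : p.IsPrime := (hUaff.primeIdealOf ⟨x, hxU⟩).isPrime
  let algS : Algebra Γ(X, U) (X.presheaf.stalk x) :=
    TopCat.Presheaf.algebra_section_stalk X.presheaf ⟨x, hxU⟩
  have hloc : IsLocalization.AtPrime (X.presheaf.stalk x) p :=
    hUaff.isLocalization_stalk ⟨x, hxU⟩
  obtain ⟨hdom, hufd⟩ := hU Γ(X, U) p
  let e : Localization.AtPrime p ≃ₐ[Γ(X, U)] X.presheaf.stalk x :=
    IsLocalization.algEquiv p.primeCompl _ _
  exact ⟨MulEquiv.isDomain (Localization.AtPrime p) e.symm.toMulEquiv,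
    e.toMulEquiv.uniqueFactorizationMonoid hufd⟩

end Fermat.Agent.S26.UFD
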