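import Mathlib

set_option autoImplicit false

namespace Fermat.Agent.S26.UFD

/-- L3a (from maximal ideals to all primes). -/
theorem L3_localization_prime_of (A : Type*) [CommRing A]
    (hmax : ∀ (m : Ideal A) [m.IsMaximal],
      IsDomain (Localization.AtPrime m) ∧ UniqueFactorizationMonoid (Localization.AtPrime m))
    (p : Ideal A) [hp : p.IsPrime] :
    IsDomain (Localization.AtPrime p) ∧ UniqueFactorizationMonoid (Localization.AtPrime p) := by
  obtain ⟨m, hm, hpm⟩ := Ideal.exists_le_maximal p hp.ne_top
  obtain ⟨hdom, hufd⟩ := hmax m
  have hle : m.primeCompl ≤ p.primeCompl := fun x hx hxp => hx (hpm hxp)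
  let alg : Algebra (Localization.AtPrime m) (Localization.AtPrime p) :=
    IsLocalization.localizationAlgebraOfSubmonoidLe (Localization.AtPrime m)
      (Localization.AtPrime p) m.primeCompl p.primeCompl hle
  have tower : IsScalarTower A (Localization.AtPrime m) (Localization.AtPrime p) :=
    IsLocalization.localization_isScalarTower_of_submonoid_le (Localization.AtPrime m)
      (Localization.AtPrime p) m.primeCompl p.primeCompl hle
  have loc : IsLocalization (p.primeCompl.map (algebraMap A (Localization.AtPrime m)))
      (Localization.AtPrime p) :=
    IsLocalization.isLocalization_of_submonoid_le (Localization.AtPrime m)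
      (Localization.AtPrime p) m.primeCompl p.primeCompl hle
  have hnzd : p.primeCompl.map (algebraMap A (Localization.AtPrime m)) ≤
      nonZeroDivisors (Localization.AtPrime m) := by
    rintro _ ⟨s, hs, rfl⟩
    rw [mem_nonZeroDivisors_iff_ne_zero]
    intro h0
    -- `s` maps to `0` in `A_m`, hence lies in the contraction of every prime of `A_m`
    have hdisj : Disjoint (m.primeCompl : Set A) (p : Set A) := by
      rw [Set.disjoint_left]
      intro x hx hxp
      exact hx (hpm hxp)
    have hcomap := IsLocalization.under_map_of_isPrime_disjoint m.primeCompl
      (Localization.AtPrime m) hp hdisj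
    have h2 : s ∈ Ideal.under A (Ideal.map (algebraMap A (Localization.AtPrime m)) p) := by
      rw [Ideal.mem_comap, h0]
      exact Ideal.zero_mem _
    rw [hcomap] at h2
    exact hs h2
  exact ⟨IsLocalization.isDomain_of_le_nonZeroDivisors (Localization.AtPrime p) hnzd,
    UniqueFactorizationMonoid.of_isLocalization
      (p.primeCompl.map (algebraMap A (Localization.AtPrime m))) (Localization.AtPrime p)⟩

/-- L3b (normality): a domain all of whose localisations at maximal ideals are UFDs is integrally
closed. -/
theorem L3_isIntegrallyClosed_of (A : Type*) [CommRing A] [IsDomain A]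
    (h : ∀ (m : Ideal A) [m.IsMaximal], UniqueFactorizationMonoid (Localization.AtPrime m)) :
    IsIntegrallyClosed A := by
  refine IsIntegrallyClosed.of_localization_maximal fun p _ hp => ?_
  have := h p
  infer_instance

end Fermat.Agent.S26.UFD
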