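import Fermat.Agent.S26.UFD.L0_LocalizationMaximal
import Fermat.Agent.S26.UFD.L1_StalkOfSmooth
import Fermat.Agent.S26.UFD.L3_LocalizationPrime

set_option autoImplicit false

universe u

namespace Fermat.Agent.S26.UFD

open IsLocalRing AlgebraicGeometry CategoryTheory

/-- EXPORT 1 in hypothesis form: from the main theorem for noetherian local formally smooth
`K`-algebras with residue field `K` (leaf L11 + L8) to all local rings of smooth `K`-algebras. -/
theorem ufd_localization_prime_of (K : Type*) [Field K] [IsAlgClosed K] (A : Type u) [CommRing A]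
    [Algebra K A] [Algebra.Smooth K A]
    (hmain : ∀ (R : Type u) [CommRing R] [Algebra K R] [IsLocalRing R] [IsNoetherianRing R]
      [Algebra.FormallySmooth K R], Function.Bijective (algebraMap K (ResidueField R)) →
      IsDomain R ∧ UniqueFactorizationMonoid R)
    (p : Ideal A) [p.IsPrime] :
    IsDomain (Localization.AtPrime p) ∧ UniqueFactorizationMonoid (Localization.AtPrime p) := by
  refine L3_localization_prime_of A (fun m _ => ?_) p
  obtain ⟨h1, h2, h3⟩ := L0_localization_maximal K A m
  exact hmain (Localization.AtPrime m) h3

/-- EXPORT 2 in hypothesis form. -/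
theorem ufd_stalk_of_smooth_of {K : Type u} [Field K] [IsAlgClosed K]
    (hmain : ∀ (R : Type u) [CommRing R] [Algebra K R] [IsLocalRing R] [IsNoetherianRing R]
      [Algebra.FormallySmooth K R], Function.Bijective (algebraMap K (ResidueField R)) →
      IsDomain R ∧ UniqueFactorizationMonoid R)
    {X : Scheme.{u}} (f : X ⟶ Spec (CommRingCat.of K)) [Smooth f] (x : X) :
    IsDomain (X.presheaf.stalk x) ∧ UniqueFactorizationMonoid (X.presheaf.stalk x) :=
  L1_stalk_of_smooth_of (fun A _ _ _ p _ => ufd_localization_prime_of K A hmain p) f x

end Fermat.Agent.S26.UFD
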