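import Mathlib

set_option autoImplicit false

namespace Fermat.Agent.S26.UFD

open IsLocalRing

/-- L0 (bridge at closed points): the local ring of a smooth algebra over an algebraically closed
field at a maximal ideal is Noetherian, formally smooth over `K`, with residue field `K`. -/
theorem L0_localization_maximal (K A : Type*) [Field K] [IsAlgClosed K] [CommRing A] [Algebra K A]
    [Algebra.Smooth K A] (m : Ideal A) [m.IsMaximal] :
    IsNoetherianRing (Localization.AtPrime m) ∧
      Algebra.FormallySmooth K (Localization.AtPrime m) ∧
      Function.Bijective (algebraMap K (ResidueField (Localization.AtPrime m))) := by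
  have hft : Algebra.FiniteType K A := inferInstance
  have hnoeth : IsNoetherianRing A := Algebra.FiniteType.isNoetherianRing K A
  refine ⟨IsLocalization.isNoetherianRing m.primeCompl (Localization.AtPrime m) hnoeth, ?_, ?_⟩
  · have h1 : Algebra.FormallySmooth A (Localization.AtPrime m) :=
      Algebra.FormallySmooth.of_isLocalization m.primeCompl
    exact Algebra.FormallySmooth.comp K A (Localization.AtPrime m)
  · -- the residue field is a quotient of `A`, hence of finite type over `K`, hence finite
    have hsurj : Function.Surjective
        (algebraMap A (ResidueField (Localization.AtPrime m))) := by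
      intro x
      obtain ⟨y, rfl⟩ := IsLocalRing.residue_surjective x
      obtain ⟨z, hz⟩ := (IsLocalization.AtPrime.equivQuotMaximalIdeal m
        (Localization.AtPrime m)).surjective (Ideal.Quotient.mk _ y)
      obtain ⟨a, rfl⟩ := Ideal.Quotient.mk_surjective z
      refine ⟨a, ?_⟩
      rw [IsLocalization.AtPrime.equivQuotMaximalIdeal_apply_mk] at hz
      exact hz
    have hft' : Algebra.FiniteType K (ResidueField (Localization.AtPrime m)) :=
      Algebra.FiniteType.of_surjective
        (IsScalarTower.toAlgHom K A (ResidueField (Localization.AtPrime m))) hsurj
    have hfin : Module.Finite K (ResidueField (Localization.AtPrime m)) :=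
      finite_of_finite_type_of_isJacobsonRing K _
    exact IsAlgClosed.algebraMap_bijective_of_isIntegral

end Fermat.Agent.S26.UFD
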